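import Mathlib
import Fermat.Agent.FF2.G2.Lift
import Fermat.Agent.Hecke.RedInputs
import Fermat.Agent.Good.GenFinalH3
import Fermat.Agent.Val.GaloisModLFinal

/-!
# MOONSHOT S19, block (G5-I): the instance of (G2)/(G5-C) at `X₀(N)`, `ℓ ∤ N`

`A` a valuation subring of `ℚ̄` over `ℓ ∤ N`, `k` its residue field.

* `inputs N hℓN A hA : ReductionInputsModL A N` (unconditional, from main's Program L + L-GEN);
* `redS N hℓN A hA` : the `Red.RedSetup` of `F̄_N` at `A` whose place reduction is the Prelude's
  `placeReductionModL`;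
* `reductionModL_eq_redPic` : the Prelude's `reductionModL A N` is `G2.redPic` of `redS`;
* `ker_reductionModL` : `(reductionModL A N).ker = G2.kerRedPic redS`;
* `reductionModL_surjective`;
* `smul_mem_kerRed` : `kerRed redS` is stable under the decomposition group of `A`;
* `smul_mem_Disc` : `σ` in the decomposition group maps the residue disc of `Q` to the residue disc
  of `σ̃ • Q`; in particular the inertia group preserves every residue disc.
-/

set_option autoImplicit false
set_option linter.style.haveILetI false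

noncomputable section
namespace Fermat.Agent.FF2.G2I

open AlgebraicCurve ModularCurve IsLocalRing Fermat.Agent.Val Fermat.Agent.Red Fermat.Agent.FF2.G2
  Fermat.Agent.Val.GaloisModL

set_option synthInstance.maxHeartbeats 400000
set_option maxHeartbeats 1000000

variable (N : ℕ) [NeZero N] {ℓ : ℕ} [hℓ : Fact ℓ.Prime] (hℓN : ¬ ℓ ∣ N)
variable (A : ValuationSubring (AlgebraicClosure ℚ)) (hA : A.LiesOverPrime ℓ)

include hℓN hA in
/-- The Prelude's reduction inputs, unconditionally. -/
theorem inputs : ReductionInputsModL A N :=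
  Fermat.Agent.Hecke.reductionInputsModL_of_genus N hℓN A hA
    (Fermat.Agent.Good.FinalH3.genusFF_modL_eq_bar N hℓN A hA)

/-- The reduction setup of `F̄_N` at `A` attached to the Prelude's place reduction. -/
def redS : RedSetup (K := AlgebraicClosure ℚ) (F := modularFunctionFieldBar N)
    (k := ResidueField A) (Ft := modularFunctionFieldFullC (ResidueField A) N)
    A (residue A) :=
  redSetupBar hℓN hA (isPlaceReductionModL_placeReductionModL (inputs N hℓN A hA))

theorem redS_r : (redS N hℓN A hA).r = placeReductionModL (inputs N hℓN A hA) := rfl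

/-- The Prelude's reduction of `J₀(N)` is the reduction of divisor classes of `redS`. -/
theorem reductionModL_eq_redPic (z : JZero N) :
    reductionModL A N z = redPic (redS N hℓN A hA) (riemannPkg_bar N) z := by
  obtain ⟨D, rfl⟩ := Pic0.mk_surjective z
  rw [reductionModL_mk (inputs N hℓN A hA) D, redPic_mk]
  rfl

theorem ker_reductionModL :
    (reductionModL A N).ker = kerRedPic (redS N hℓN A hA) := by
  rw [← ker_redPic (redS N hℓN A hA) (riemannPkg_bar N)]
  ext z
  rw [AddMonoidHom.mem_ker, AddMonoidHom.mem_ker, reductionModL_eq_redPic N hℓN A hA]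

include hℓN hA in
theorem reductionModL_surjective : Function.Surjective (reductionModL A N) := by
  intro u
  obtain ⟨z, hz⟩ := redPic_surjective (redS N hℓN A hA) (riemannPkg_bar N) u
  exact ⟨z, by rw [reductionModL_eq_redPic N hℓN A hA, hz]⟩

variable {σ : AlgebraicClosure ℚ ≃ₐ[ℚ] AlgebraicClosure ℚ}

/-- `r (σ • P) = σ̃ • r P` for `σ` in the decomposition group. -/
theorem r_smul (hσ : σ ∈ A.decompositionSubgroup ℚ)
    (P : Place (AlgebraicClosure ℚ) (modularFunctionFieldBar N)) :
    (redS N hℓN A hA).r (arithmeticGalois (modularFunctionFieldFull N) σ • P) =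
      coeffAutC (ResidueField A) N (decompResAut A ⟨σ, hσ⟩) • (redS N hℓN A hA).r P :=
  Fermat.Agent.Val.GaloisModL.r_decomposition_smul N hℓN A hA
    (isPlaceReductionModL_placeReductionModL (inputs N hℓN A hA)) hσ P

/-- Push-forward of divisors: `r_* (σ • D) = σ̃ • r_* D`. -/
theorem mapDomain_r_smul (hσ : σ ∈ A.decompositionSubgroup ℚ)
    (D : Divisor (AlgebraicClosure ℚ) (modularFunctionFieldBar N)) :
    Finsupp.mapDomain (redS N hℓN A hA).r
        (arithmeticGalois (modularFunctionFieldFull N) σ • D) =
      coeffAutC (ResidueField A) N (decompResAut A ⟨σ, hσ⟩) •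
        Finsupp.mapDomain (redS N hℓN A hA).r D := by
  rw [SemilinearAut.divisor_smul_def, SemilinearAut.divisor_smul_def, ← Finsupp.mapDomain_comp,
    ← Finsupp.mapDomain_comp]
  congr 1
  funext P
  exact r_smul N hℓN A hA hσ P

/-- The kernel of reduction is stable under the decomposition group. -/
theorem smul_mem_kerRed (hσ : σ ∈ A.decompositionSubgroup ℚ)
    {D : Divisor (AlgebraicClosure ℚ) (modularFunctionFieldBar N)}
    (hD : D ∈ kerRed (redS N hℓN A hA)) :
    arithmeticGalois (modularFunctionFieldFull N) σ • D ∈ kerRed (redS N hℓN A hA) := by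
  refine ⟨by rw [SemilinearAut.degree_smul]; exact hD.1, ?_⟩
  rw [mapDomain_r_smul N hℓN A hA hσ]
  exact SemilinearAut.smul_mem_principal _ hD.2

/-- `σ` in the decomposition group maps the residue disc of `Q` to that of `σ̃ • Q`. -/
theorem r_smul_eq_of_r_eq (hσ : σ ∈ A.decompositionSubgroup ℚ)
    {P : Place (AlgebraicClosure ℚ) (modularFunctionFieldBar N)}
    {Q : Place (ResidueField A) (modularFunctionFieldFullC (ResidueField A) N)}
    (hP : (redS N hℓN A hA).r P = Q)
    (hQ : coeffAutC (ResidueField A) N (decompResAut A ⟨σ, hσ⟩) • Q = Q) :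
    (redS N hℓN A hA).r (arithmeticGalois (modularFunctionFieldFull N) σ • P) = Q := by
  rw [r_smul N hℓN A hA hσ, hP, hQ]

/-- A chart whose centres `Pb j` are fixed by `σ̃` has `σ`-stable discs. -/
theorem smul_mem_Disc {g : ℕ} (C : ChartData (redS N hℓN A hA) g)
    (hσ : σ ∈ A.decompositionSubgroup ℚ)
    (hPb : ∀ j, coeffAutC (ResidueField A) N (decompResAut A ⟨σ, hσ⟩) • C.Pb j = C.Pb j)
    (j : Fin g) (P : Place (AlgebraicClosure ℚ) (modularFunctionFieldBar N))
    (hP : P ∈ C.Disc j) :
    arithmeticGalois (modularFunctionFieldFull N) σ • P ∈ C.Disc j :=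
  r_smul_eq_of_r_eq N hℓN A hA hσ hP (hPb j)

/-! ### coordinates on `ker (reductionModL A N)` and their Galois equivariance -/

section Coordinates

variable {g : ℕ} {C : ChartData (redS N hℓN A hA) g} (X : CoordData C)
  (hg : genusFF (AlgebraicClosure ℚ) (modularFunctionFieldBar N) ≤ g)

/-- **The coordinates on the kernel of reduction of `J₀(N)`** (junk outside the kernel). -/
def xJ (u : JZero N) : Fin g → {c : A // residue A c = 0} :=
  X.xPic (riemannPkg_bar N) (riemannPkg_modL_residueField N hℓN A hA) hg u

/-- Injectivity on the kernel of reduction. -/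
theorem xJ_eq_iff {u u' : JZero N} (hu : reductionModL A N u = 0)
    (hu' : reductionModL A N u' = 0) :
    xJ N hℓN A hA X hg u = xJ N hℓN A hA X hg u' ↔ u = u' := by
  have h1 : u ∈ kerRedPic (redS N hℓN A hA) := by
    rw [← ker_reductionModL N hℓN A hA]
    exact hu
  have h2 : u' ∈ kerRedPic (redS N hℓN A hA) := by
    rw [← ker_reductionModL N hℓN A hA]
    exact hu'
  exact X.xPic_eq_iff (residue_surjective' A) (riemannPkg_bar N)
    (riemannPkg_modL_residueField N hℓN A hA) hg h1 h2

/-- Surjectivity onto `(𝔪_A)^g`. -/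
theorem exists_xJ_eq (c : Fin g → {c : A // residue A c = 0}) :
    ∃ u : JZero N, reductionModL A N u = 0 ∧ xJ N hℓN A hA X hg u = c := by
  obtain ⟨u, hu, hx⟩ := X.exists_xPic_eq (residue_surjective' A) (riemannPkg_bar N)
    (riemannPkg_modL_residueField N hℓN A hA) hg c
  refine ⟨u, ?_, hx⟩
  rw [← ker_reductionModL N hℓN A hA] at hu
  exact hu

/-- **Galois equivariance**: for `σ` in the decomposition group of `A` fixing the chart (base
points `P0 j`, centres `Pb j`, coordinates `t j`), `x (σ • u)_j = σ (x(u)_j)`. -/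
theorem xJ_smul (hσ : σ ∈ A.decompositionSubgroup ℚ)
    (hP0 : ∀ j, arithmeticGalois (modularFunctionFieldFull N) σ • C.P0 j = C.P0 j)
    (hPb : ∀ j, coeffAutC (ResidueField A) N (decompResAut A ⟨σ, hσ⟩) • C.Pb j = C.Pb j)
    (ht : ∀ j, arithmeticGalois (modularFunctionFieldFull N) σ • (X.T j).t = (X.T j).t)
    {u : JZero N} (hu : reductionModL A N u = 0) (j : Fin g) :
    (((xJ N hℓN A hA X hg (σ • u) j : {c : A // residue A c = 0}) : A) : AlgebraicClosure ℚ) =
      σ (((xJ N hℓN A hA X hg u j : {c : A // residue A c = 0}) : A) : AlgebraicClosure ℚ) := by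
  have h1 : u ∈ kerRedPic (redS N hℓN A hA) := by
    rw [← ker_reductionModL N hℓN A hA]
    exact hu
  rw [galois_smul_pic0_def]
  exact X.xPic_smul (residue_surjective' A) (riemannPkg_bar N)
    (riemannPkg_modL_residueField N hℓN A hA) hg
    (arithmeticGalois (modularFunctionFieldFull N) σ) hP0
    (smul_mem_Disc N hℓN A hA C hσ hPb) ht
    (fun D hD => smul_mem_kerRed N hℓN A hA hσ hD) h1 j

include hℓN hA in
/-- The kernel of reduction is stable under the decomposition group. -/
theorem reductionModL_smul_eq_zero (hσ : σ ∈ A.decompositionSubgroup ℚ) {u : JZero N}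
    (hu : reductionModL A N u = 0) : reductionModL A N (σ • u) = 0 := by
  rw [reductionModL_decomposition_smul N hℓN A hA (inputs N hℓN A hA) hσ u, hu, map_zero]

end Coordinates

end Fermat.Agent.FF2.G2I
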