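import Mathlib
import Fermat.Agent.FF2.G2.CoordOfCof
import Fermat.Agent.FF2.G2I.Instance
import Fermat.Agent.FF2.Rat.PlaceStab

/-!
# MOONSHOT S19, blocks (N7)/(N8): the bridges `xJ ↔ X.x` and (CH) at the instance `X₀(N)`, `ℓ ∤ N`

`A` a valuation subring of `ℚ̄` over `ℓ ∤ N`, `S = redS N hℓN A hA`.

## divisor level ↔ class level (for (ADD), helper22)
* `reductionModL_mk_eq_zero_iff` : `reductionModL A N (Pic0.mk D) = 0 ↔ ↑D ∈ kerRed S`;
* `exists_mk_eq_of_reductionModL_eq_zero` : every class of the kernel of reduction is `Pic0.mk D`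
  with `↑D ∈ kerRed S`;
* `xJ_mk` : `xJ (Pic0.mk D) = X.x ↑D` for `↑D ∈ kerRed S`;
* `xJ_mk_add₃` : `xJ (Pic0.mk D + Pic0.mk D' + Pic0.mk D₀) = X.x (↑D + ↑D' + ↑D₀)`.

## (CH): fixedness of a chart built from rational disc coordinates
* `xJ_smul_of_mem_placeStab` : `xJ_smul` with `hPb` replaced by `σ ∈ placeStab N A (C.Pb j)`;
* `ch_of_cof` : for a chart `C` with base points `lift (C.Pb j)` (`lift` = helper21's (SEC) section,
  through its two consequences `hP0`, `ht` at the centres) and coordinates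
  `X = CoordData.ofCof C Cof _`, every `σ` in all the `placeStab N A (C.Pb j)` satisfies the three
  hypotheses `hP0`, `hPb`, `ht` of `xJ_smul`.
-/

set_option autoImplicit false
set_option linter.style.haveILetI false
set_option linter.unusedSectionVars false

noncomputable section
namespace Fermat.Agent.FF2.G2I

open AlgebraicCurve ModularCurve IsLocalRing Fermat.Agent.Val Fermat.Agent.Red Fermat.Agent.FF2.G2
  Fermat.Agent.Val.GaloisModL Fermat.Agent.FF2.Rat Fermat.Agent.FF2.Disc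

set_option synthInstance.maxHeartbeats 400000
set_option maxHeartbeats 1000000

local notation "GQ" => (AlgebraicClosure ℚ ≃ₐ[ℚ] AlgebraicClosure ℚ)

variable (N : ℕ) [NeZero N] {ℓ : ℕ} [hℓ : Fact ℓ.Prime] (hℓN : ¬ ℓ ∣ N)
variable (A : ValuationSubring (AlgebraicClosure ℚ)) (hA : A.LiesOverPrime ℓ)

/-! ### divisors ↔ classes -/

theorem reductionModL_mk_eq_zero_iff
    (D : Divisor.degZero (K := AlgebraicClosure ℚ) (F := modularFunctionFieldBar N)) :
    reductionModL A N (Pic0.mk D) = 0 ↔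
      (D : Divisor (AlgebraicClosure ℚ) (modularFunctionFieldBar N)) ∈
        kerRed (redS N hℓN A hA) := by
  rw [← mk_mem_kerRedPic_iff (redS N hℓN A hA) (riemannPkg_bar N) D,
    ← ker_reductionModL N hℓN A hA, AddMonoidHom.mem_ker]

theorem exists_mk_eq_of_reductionModL_eq_zero {u : JZero N} (hu : reductionModL A N u = 0) :
    ∃ D : Divisor.degZero (K := AlgebraicClosure ℚ) (F := modularFunctionFieldBar N),
      (D : Divisor (AlgebraicClosure ℚ) (modularFunctionFieldBar N)) ∈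
        kerRed (redS N hℓN A hA) ∧ Pic0.mk D = u := by
  obtain ⟨D, rfl⟩ := Pic0.mk_surjective u
  exact ⟨D, (reductionModL_mk_eq_zero_iff N hℓN A hA D).1 hu, rfl⟩

section Coordinates

variable {g : ℕ} {C : ChartData (redS N hℓN A hA) g} (X : CoordData C)
  (hg : genusFF (AlgebraicClosure ℚ) (modularFunctionFieldBar N) ≤ g)

/-- **The bridge `xJ ↔ X.x`.** -/
theorem xJ_mk {D : Divisor.degZero (K := AlgebraicClosure ℚ) (F := modularFunctionFieldBar N)}
    (hD : (D : Divisor (AlgebraicClosure ℚ) (modularFunctionFieldBar N)) ∈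
      kerRed (redS N hℓN A hA)) :
    xJ N hℓN A hA X hg (Pic0.mk D) =
      X.x (riemannPkg_bar N) (riemannPkg_modL_residueField N hℓN A hA) hg
        (D : Divisor (AlgebraicClosure ℚ) (modularFunctionFieldBar N)) :=
  X.xPic_mk (residue_surjective' A) (riemannPkg_bar N)
    (riemannPkg_modL_residueField N hℓN A hA) hg hD

/-- The bridge for the sum `u + u' + c0` of (ADD). -/
theorem xJ_mk_add₃
    {D D' D₀ : Divisor.degZero (K := AlgebraicClosure ℚ) (F := modularFunctionFieldBar N)}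
    (hD : (D : Divisor (AlgebraicClosure ℚ) (modularFunctionFieldBar N)) ∈
      kerRed (redS N hℓN A hA))
    (hD' : (D' : Divisor (AlgebraicClosure ℚ) (modularFunctionFieldBar N)) ∈
      kerRed (redS N hℓN A hA))
    (hD₀ : (D₀ : Divisor (AlgebraicClosure ℚ) (modularFunctionFieldBar N)) ∈
      kerRed (redS N hℓN A hA)) :
    xJ N hℓN A hA X hg (Pic0.mk D + Pic0.mk D' + Pic0.mk D₀) =
      X.x (riemannPkg_bar N) (riemannPkg_modL_residueField N hℓN A hA) hg
        ((D : Divisor (AlgebraicClosure ℚ) (modularFunctionFieldBar N)) + D' + D₀) := by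
  have h : (((D + D' + D₀ : Divisor.degZero (K := AlgebraicClosure ℚ)
      (F := modularFunctionFieldBar N)) : Divisor (AlgebraicClosure ℚ)
        (modularFunctionFieldBar N))) ∈ kerRed (redS N hℓN A hA) :=
    add_mem (add_mem hD hD') hD₀
  exact xJ_mk N hℓN A hA X hg (D := D + D' + D₀) h

variable {σ : GQ}

/-- `xJ_smul` with the hypothesis on the centres in `placeStab` form. -/
theorem xJ_smul_of_mem_placeStab (hσ : ∀ j, σ ∈ placeStab N A (C.Pb j)) (hg0 : 0 < g)
    (hP0 : ∀ j, arithmeticGalois (modularFunctionFieldFull N) σ • C.P0 j = C.P0 j)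
    (ht : ∀ j, arithmeticGalois (modularFunctionFieldFull N) σ • (X.T j).t = (X.T j).t)
    {u : JZero N} (hu : reductionModL A N u = 0) (j : Fin g) :
    (((xJ N hℓN A hA X hg (σ • u) j : {c : A // residue A c = 0}) : A) : AlgebraicClosure ℚ) =
      σ (((xJ N hℓN A hA X hg u j : {c : A // residue A c = 0}) : A) : AlgebraicClosure ℚ) :=
  xJ_smul N hℓN A hA X hg (placeStab_le (C.Pb ⟨0, hg0⟩) (hσ ⟨0, hg0⟩)) hP0
    (fun j => (mem_placeStab.1 (hσ j)).2) ht hu j

end Coordinates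

/-! ### (CH) from one family of disc coordinates -/

section CH

variable {g : ℕ} (C : ChartData (redS N hℓN A hA) g)
  {Z : Set (Place (AlgebraicClosure ℚ) (modularFunctionFieldBar N))}
  (Cof : Place (ResidueField A) (modularFunctionFieldFullC (ResidueField A) N) →
    DiscCoord (redS N hℓN A hA) Z)
  (hCof : ∀ j, (Cof (C.Pb j)).P₀ = C.P0 j)

/-- **(CH) at the instance.** The three fixedness hypotheses of `xJ_smul` for the coordinates
`CoordData.ofCof C Cof hCof`, for every `σ` of a subgroup `Γ` contained in all the stabilisers of the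
centres: from `placeStab`-fixedness of the base points and of the parameters `(Cof (C.Pb j)).t`
(helper21's (SEC)/(R-7) conclusions at `Q = C.Pb j`). -/
theorem ch_of_cof (Γ : Subgroup GQ) (hΓ : Γ ≤ A.decompositionSubgroup ℚ)
    (hΓs : ∀ j, Γ ≤ placeStab N A (C.Pb j))
    (hP0 : ∀ j, ∀ σ ∈ placeStab N A (C.Pb j),
      arithmeticGalois (modularFunctionFieldFull N) σ • C.P0 j = C.P0 j)
    (ht : ∀ j, ∀ σ ∈ placeStab N A (C.Pb j),
      arithmeticGalois (modularFunctionFieldFull N) σ • (Cof (C.Pb j)).t = (Cof (C.Pb j)).t)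
    (σ : GQ) (hσ : σ ∈ Γ) :
    (∀ j, arithmeticGalois (modularFunctionFieldFull N) σ • C.P0 j = C.P0 j) ∧
    (∀ j, coeffAutC (ResidueField A) N (decompResAut A ⟨σ, hΓ hσ⟩) • C.Pb j = C.Pb j) ∧
    ∀ j, arithmeticGalois (modularFunctionFieldFull N) σ •
      ((CoordData.ofCof C Cof hCof).T j).t = ((CoordData.ofCof C Cof hCof).T j).t :=
  ⟨fun j => hP0 j σ (hΓs j hσ), fun j => (mem_placeStab.1 (hΓs j hσ)).2,
    fun j => ht j σ (hΓs j hσ)⟩

/-- The equivariance of `xJ` for the coordinates `CoordData.ofCof C Cof hCof`. -/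
theorem xJ_ofCof_smul
    (hg : genusFF (AlgebraicClosure ℚ) (modularFunctionFieldBar N) ≤ g)
    (Γ : Subgroup GQ) (hΓ : Γ ≤ A.decompositionSubgroup ℚ)
    (hΓs : ∀ j, Γ ≤ placeStab N A (C.Pb j))
    (hP0 : ∀ j, ∀ σ ∈ placeStab N A (C.Pb j),
      arithmeticGalois (modularFunctionFieldFull N) σ • C.P0 j = C.P0 j)
    (ht : ∀ j, ∀ σ ∈ placeStab N A (C.Pb j),
      arithmeticGalois (modularFunctionFieldFull N) σ • (Cof (C.Pb j)).t = (Cof (C.Pb j)).t)
    {σ : GQ} (hσ : σ ∈ Γ) {u : JZero N} (hu : reductionModL A N u = 0) (j : Fin g) :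
    (((xJ N hℓN A hA (CoordData.ofCof C Cof hCof) hg (σ • u) j :
        {c : A // residue A c = 0}) : A) : AlgebraicClosure ℚ) =
      σ (((xJ N hℓN A hA (CoordData.ofCof C Cof hCof) hg u j :
        {c : A // residue A c = 0}) : A) : AlgebraicClosure ℚ) := by
  obtain ⟨h1, h2, h3⟩ := ch_of_cof N hℓN A hA C Cof hCof Γ hΓ hΓs hP0 ht σ hσ
  exact xJ_smul N hℓN A hA (CoordData.ofCof C Cof hCof) hg (hΓ hσ) h1 h2 h3 hu j

/-- (CH) in the shape of helper21's (R-7) export: the conjunction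
`σ • C.P₀ = C.P₀ ∧ σ • C.t = C.t` for `σ ∈ placeStab N A Q` at each `Q = C.Pb j`. -/
theorem ch_of_cof' (Γ : Subgroup GQ) (hΓ : Γ ≤ A.decompositionSubgroup ℚ)
    (hΓs : ∀ j, Γ ≤ placeStab N A (C.Pb j))
    (hfix : ∀ j, ∀ σ ∈ placeStab N A (C.Pb j),
      arithmeticGalois (modularFunctionFieldFull N) σ • (Cof (C.Pb j)).P₀ = (Cof (C.Pb j)).P₀ ∧
      arithmeticGalois (modularFunctionFieldFull N) σ • (Cof (C.Pb j)).t = (Cof (C.Pb j)).t)
    (σ : GQ) (hσ : σ ∈ Γ) :
    (∀ j, arithmeticGalois (modularFunctionFieldFull N) σ • C.P0 j = C.P0 j) ∧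
    (∀ j, coeffAutC (ResidueField A) N (decompResAut A ⟨σ, hΓ hσ⟩) • C.Pb j = C.Pb j) ∧
    ∀ j, arithmeticGalois (modularFunctionFieldFull N) σ •
      ((CoordData.ofCof C Cof hCof).T j).t = ((CoordData.ofCof C Cof hCof).T j).t :=
  ch_of_cof N hℓN A hA C Cof hCof Γ hΓ hΓs
    (fun j σ hσ => by rw [← hCof j]; exact (hfix j σ hσ).1)
    (fun j σ hσ => (hfix j σ hσ).2) σ hσ

/-- The equivariance of `xJ` for `CoordData.ofCof C Cof hCof`, from (R-7)-shaped fixedness. -/
theorem xJ_ofCof_smul'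
    (hg : genusFF (AlgebraicClosure ℚ) (modularFunctionFieldBar N) ≤ g)
    (Γ : Subgroup GQ) (hΓ : Γ ≤ A.decompositionSubgroup ℚ)
    (hΓs : ∀ j, Γ ≤ placeStab N A (C.Pb j))
    (hfix : ∀ j, ∀ σ ∈ placeStab N A (C.Pb j),
      arithmeticGalois (modularFunctionFieldFull N) σ • (Cof (C.Pb j)).P₀ = (Cof (C.Pb j)).P₀ ∧
      arithmeticGalois (modularFunctionFieldFull N) σ • (Cof (C.Pb j)).t = (Cof (C.Pb j)).t)
    {σ : GQ} (hσ : σ ∈ Γ) {u : JZero N} (hu : reductionModL A N u = 0) (j : Fin g) :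
    (((xJ N hℓN A hA (CoordData.ofCof C Cof hCof) hg (σ • u) j :
        {c : A // residue A c = 0}) : A) : AlgebraicClosure ℚ) =
      σ (((xJ N hℓN A hA (CoordData.ofCof C Cof hCof) hg u j :
        {c : A // residue A c = 0}) : A) : AlgebraicClosure ℚ) := by
  obtain ⟨h1, h2, h3⟩ := ch_of_cof' N hℓN A hA C Cof hCof Γ hΓ hΓs hfix σ hσ
  exact xJ_smul N hℓN A hA (CoordData.ofCof C Cof hCof) hg (hΓ hσ) h1 h2 h3 hu j

end CH

end Fermat.Agent.FF2.G2I
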