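import Mathlib
import Fermat.Agent.FF2.G2I.Instance
import Fermat.Agent.FF2.NS.ChordData
import Fermat.Agent.FF2.Rat.GoodSection
import Fermat.Agent.FF2.Rat24.Pinf

/-!
# MOONSHOT S19, block (T-GEO), level-free half: the choices (1)-(2) of board v2 at `X₀(N)`

`A` a valuation subring of `ℚ̄` over `ℓ ∤ N`, `k` its residue field, `S = redS N hℓN A hA`,
`g = genusFF k F̃_N`, `∞ = Rat24.pinf N` (helper24's `q`-order place, fixed by all of `G_ℚ`).

`exists_chord_choices` : there are, all chosen BEFORE any level `ζ`,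

1. helper21's good section `(Bad, lift)` (`Rat.exists_good_section`, clauses verbatim);
2. two charts `C`, `C'` with centres outside `Bad`, disjoint, and base points `lift ∘ Pb`
   (helper15's `NS.exists_chartData` / `NS.exists_chordData_one`);
3. `m₀` such that for EVERY `m ≥ m₀` (the consumer takes `m := max m₀ c`, `c` helper25's bound of
   `HChord.exists_bound_span_resF_eq`) both chords `X1 : GC.ChordData C' (g + g)`,
   `X2 : GC.ChordData C g` exist at the SAME `m` with `Pinf = pinf N`, `R = lift_* Rb`, `Rb`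
   supported outside `Bad`, carrying helper15's special-fibre packages `ChordOneJets`,
   `ChordTwoJets` (export clauses of `NS.exists_chordData_one/two` verbatim).
-/

set_option autoImplicit false
set_option linter.style.haveILetI false
set_option linter.unusedSectionVars false

noncomputable section
namespace Fermat.Agent.FF2.G2I

open AlgebraicCurve ModularCurve IsLocalRing Fermat.Agent.Val Fermat.Agent.Red Fermat.Agent.FF2.G2
  Fermat.Agent.Val.GaloisModL Fermat.Agent.FF2.Rat Fermat.Agent.FF2.GC Fermat.Agent.FF2.NS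
  Fermat.Agent.FF2.Disc Fermat.Agent.X0 Fermat.Agent.FF2.Rat24 Fermat.Agent.Good.CuspBound

set_option synthInstance.maxHeartbeats 400000
set_option maxHeartbeats 1000000

local notation "GQ" => (AlgebraicClosure ℚ ≃ₐ[ℚ] AlgebraicClosure ℚ)

variable (N : ℕ) [NeZero N] {ℓ : ℕ} [hℓ : Fact ℓ.Prime] (hℓN : ¬ ℓ ∣ N)
variable (A : ValuationSubring (AlgebraicClosure ℚ)) (hA : A.LiesOverPrime ℓ)

/-- **(T-GEO), level-free choices.** -/
theorem exists_chord_choices :
    ∃ (Bad : Finset (Place (ResidueField A) (modularFunctionFieldFullC (ResidueField A) N)))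
      (lift : Place (ResidueField A) (modularFunctionFieldFullC (ResidueField A) N) →
        Place (AlgebraicClosure ℚ) (modularFunctionFieldBar N)),
      (∀ Q, (redS N hℓN A hA).r (lift Q) = Q) ∧
      (∀ P ∈ placesOverInfty (AlgebraicClosure ℚ) (jBar N), (redS N hℓN A hA).r P ∈ Bad) ∧
      (∀ Q, Q ∉ Bad →
        ∃ (a : ResidueField A) (c : A) (Cd : DiscCoord (redS N hℓN A hA)
            (placesOverInfty (AlgebraicClosure ℚ) (jBar N))),
          Cd.P₀ = lift Q ∧
          Cd.t = jBar N - algebraMap (AlgebraicClosure ℚ) (modularFunctionFieldBar N)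
            (c : AlgebraicClosure ℚ) ∧
          (c : AlgebraicClosure ℚ) ∈ fixedRing A (placeStab N A Q) ∧ residue A c = a ∧
          (redS N hℓN A hA).resF Cd.t = jC N A - algebraMap (ResidueField A) _ a ∧
          ∀ σ ∈ placeStab N A Q,
            arithmeticGalois (modularFunctionFieldFull N) σ • Cd.P₀ = Cd.P₀ ∧
            arithmeticGalois (modularFunctionFieldFull N) σ • Cd.t = Cd.t) ∧
      ∃ (C C' : ChartData (redS N hℓN A hA)
          (genusFF (ResidueField A) (modularFunctionFieldFullC (ResidueField A) N))),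
        (∀ j, C.Pb j ∉ Bad) ∧ (∀ j, C.P0 j = lift (C.Pb j)) ∧
        (∀ j, C'.Pb j ∉ Bad) ∧ (∀ j, C'.P0 j = lift (C'.Pb j)) ∧
        (∀ i j, C'.Pb j ≠ C.Pb i) ∧
        (∀ j, C.Pb j ≠ (redS N hℓN A hA).r (pinf N)) ∧
        (∀ j, C'.Pb j ≠ (redS N hℓN A hA).r (pinf N)) ∧
        ∃ m₀ : ℕ, ∀ m : ℕ, m₀ ≤ m →
          ∃ (X1 : ChordData C'
              (genusFF (ResidueField A) (modularFunctionFieldFullC (ResidueField A) N) +
                genusFF (ResidueField A) (modularFunctionFieldFullC (ResidueField A) N)))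
            (Rb1 : Divisor (ResidueField A) (modularFunctionFieldFullC (ResidueField A) N))
            (X2 : ChordData C
              (genusFF (ResidueField A) (modularFunctionFieldFullC (ResidueField A) N)))
            (Rb2 : Divisor (ResidueField A) (modularFunctionFieldFullC (ResidueField A) N)),
            (X1.Pinf = pinf N ∧ X1.m = m ∧ X1.Qb = Fin.append C.Pb C.Pb ∧
              X1.R = Finsupp.mapDomain lift Rb1 ∧
              Finsupp.mapDomain (redS N hℓN A hA).r X1.R = Rb1 ∧ 0 ≤ X1.R ∧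
              (∀ Q ∈ Bad, Rb1 Q = 0) ∧
              ChordOneJets ((redS N hℓN A hA).r (pinf N)) m C.Pb C'.Pb X1.f0b Rb1) ∧
            (X2.Pinf = pinf N ∧ X2.m = m ∧ X2.Qb = C'.Pb ∧
              X2.R = Finsupp.mapDomain lift Rb2 ∧
              Finsupp.mapDomain (redS N hℓN A hA).r X2.R = Rb2 ∧ 0 ≤ X2.R ∧
              (∀ Q ∈ Bad, Rb2 Q = 0) ∧
              ChordTwoJets ((redS N hℓN A hA).r (pinf N)) m C.Pb C'.Pb X2.f0b Rb2) := by
  classical
  haveI : IsAlgClosed (ResidueField A) := residueField_isAlgClosed A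
  haveI : Infinite (ResidueField A) := IsAlgClosed.instInfinite
  have hFt := riemannPkg_modL_residueField N hℓN A hA
  obtain ⟨Bad, lift, hlift, hcusp, hgood⟩ :=
    exists_good_section hℓN hA (inputs N hℓN A hA)
  have hlift' : ∀ Q, (redS N hℓN A hA).r (lift Q) = Q := hlift
  have hinfBad : (redS N hℓN A hA).r (pinf N) ∈ Bad := hcusp _ (pinf_mem_placesOverInfty N)
  obtain ⟨C, hCBad, hCP0⟩ := exists_chartData (S := redS N hℓN A hA) hFt lift hlift' rfl Bad
  have hinf : ∀ j, C.Pb j ≠ (redS N hℓN A hA).r (pinf N) := fun j h =>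
    hCBad j (h ▸ hinfBad)
  obtain ⟨C', hC', hC'P0, m₁, hm₁⟩ :=
    exists_chordData_one (S := redS N hℓN A hA) hFt lift hlift' rfl C (pinf N) hinf Bad
  have hdisj : ∀ i j, C'.Pb j ≠ C.Pb i := fun i j => (hC' j).2.2 i
  have hinf' : ∀ j, C'.Pb j ≠ (redS N hℓN A hA).r (pinf N) := fun j => (hC' j).2.1
  obtain ⟨m₂, hm₂⟩ :=
    exists_chordData_two (S := redS N hℓN A hA) hFt lift hlift' rfl C C' (pinf N) hdisj hinf
      hinf' Bad
  refine ⟨Bad, lift, hlift', hcusp, hgood, C, C', hCBad, hCP0, fun j => (hC' j).1, hC'P0, hdisj,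
    hinf, hinf', max m₁ m₂, fun m hm => ?_⟩
  obtain ⟨X1, Rb1, h1⟩ := hm₁ m (le_trans (le_max_left _ _) hm)
  obtain ⟨X2, Rb2, h2⟩ := hm₂ m (le_trans (le_max_right _ _) hm)
  exact ⟨X1, Rb1, X2, Rb2, h1, h2⟩

end Fermat.Agent.FF2.G2I
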