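import Mathlib
import Fermat.Agent.FF2.G4.TwoChords
import Fermat.Agent.FF2.G2I.Instance
import Fermat.Agent.FF2.Rat.PlaceStab

/-!
# MOONSHOT S19, block (C0): the constant `c0` of the two-chord addition law is rational

Abstract part (`S : Red.RedSetup A π`, `γ : SemilinearAut K F`):

* `smul_sumPts_eq`, `smul_mapDomain_lift_eq` : divisors built from `γ`-fixed places are `γ`-fixed;
* `smul_twoChordConst` : helper22's `G4.twoChordConst X1 X2 = m₂∞₂ − R₂ − m₁∞₁ + R₁ + Σ P0` is fixed
  by every `γ` fixing `∞₁`, `∞₂`, `R₁`, `R₂` and the base points `C.P0 j`;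
* `pic0_smul_mk_eq` : the class of a `γ`-fixed divisor is `γ`-fixed (so
  `γ • G4.twoChordClass … = G4.twoChordClass …`, the class being `Pic0.mk ⟨twoChordConst X1 X2, _⟩`).

Instance part (`X₀(N)`, `A` over `ℓ ∤ N`, `lift` a section of the place reduction whose values at
the points of a finite set `s` are fixed by the stabilisers, e.g. helper21's (SEC)):

* `smul_twoChordConst_of_placeStab` : `σ • twoChordConst X1 X2 = twoChordConst X1 X2` for `σ` in all
  the `placeStab N A Q`, `Q ∈ s`, when `∞_i` are `σ`-fixed (helper24: `pinf N` is `G_ℚ`-fixed),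
  `R_i = lift_* Rb_i` with `supp Rb_i ⊆ s`, `C.P0 j = lift (C.Pb j)` with `C.Pb j ∈ s`;
* `galois_smul_mk_eq` : the class statement for `σ : G_ℚ` acting on `JZero N`.
-/

set_option autoImplicit false
set_option linter.style.haveILetI false
set_option linter.unusedSectionVars false

noncomputable section

namespace Fermat.Agent.FF2.G2

open AlgebraicCurve Fermat.Agent.Red

variable {K F : Type*} [Field K] [Field F] [Algebra K F]

/-- A sum of `γ`-fixed places is `γ`-fixed. -/
theorem smul_sumPts_eq (γ : SemilinearAut K F) {n : ℕ} (P : Fin n → Place K F)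
    (h : ∀ j, γ • P j = P j) : γ • sumPts P = sumPts P := by
  unfold sumPts
  rw [Finset.smul_sum]
  refine Finset.sum_congr rfl fun j _ => ?_
  rw [SemilinearAut.smul_single, h j]

/-- The push-forward along `lift` of a divisor supported at points with `γ`-fixed lifts is
`γ`-fixed. -/
theorem smul_mapDomain_lift_eq (γ : SemilinearAut K F) {Y : Type*} (lift : Y → Place K F)
    (Rb : Y →₀ ℤ) (h : ∀ Q ∈ Rb.support, γ • lift Q = lift Q) :
    γ • (Finsupp.mapDomain lift Rb : Divisor K F) = Finsupp.mapDomain lift Rb := by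
  rw [SemilinearAut.divisor_smul_def, ← Finsupp.mapDomain_comp]
  exact Finsupp.mapDomain_congr fun Q hQ => h Q hQ

/-- The class of a `γ`-fixed divisor of degree `0` is `γ`-fixed. -/
theorem pic0_smul_mk_eq (γ : SemilinearAut K F) {D : Divisor K F}
    (hD : D ∈ Divisor.degZero (K := K) (F := F)) (h : γ • D = D) :
    γ • Pic0.mk ⟨D, hD⟩ = Pic0.mk ⟨D, hD⟩ := by
  rw [SemilinearAut.pic0_smul_mk]
  congr 1
  exact Subtype.ext (by rw [SemilinearAut.coe_degZeroSMulHom]; exact h)

end Fermat.Agent.FF2.G2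

namespace Fermat.Agent.FF2.G4

open AlgebraicCurve Fermat.Agent.Red Fermat.Agent.FF2.G2 Fermat.Agent.FF2.GC

variable {K F k Ft : Type*} [Field K] [Field F] [Algebra K F] [Field k] [Field Ft]
  [Algebra k Ft] {A : ValuationSubring K} {π : A →+* k}
  {S : RedSetup (F := F) (Ft := Ft) A π}
  {g : ℕ} {C C' : ChartData S g} (X1 : ChordData C' (g + g)) (X2 : ChordData C g)

/-- **(C0), abstract.** The two-chord constant is fixed by every semilinear automorphism fixing its
ingredients. -/
theorem smul_twoChordConst (γ : SemilinearAut K F) (hinf1 : γ • X1.Pinf = X1.Pinf)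
    (hinf2 : γ • X2.Pinf = X2.Pinf) (hR1 : γ • X1.R = X1.R) (hR2 : γ • X2.R = X2.R)
    (hP0 : ∀ j, γ • C.P0 j = C.P0 j) :
    γ • twoChordConst X1 X2 = twoChordConst X1 X2 := by
  unfold twoChordConst
  rw [smul_add, smul_add, smul_sub, smul_sub, SemilinearAut.smul_single,
    SemilinearAut.smul_single, hinf1, hinf2, hR1, hR2, smul_sumPts_eq γ C.P0 hP0]

end Fermat.Agent.FF2.G4

namespace Fermat.Agent.FF2.G2I

open AlgebraicCurve ModularCurve IsLocalRing Fermat.Agent.Val Fermat.Agent.Red Fermat.Agent.FF2.G2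
  Fermat.Agent.Val.GaloisModL Fermat.Agent.FF2.Rat Fermat.Agent.FF2.GC Fermat.Agent.FF2.G4

set_option synthInstance.maxHeartbeats 400000
set_option maxHeartbeats 1000000

local notation "GQ" => (AlgebraicClosure ℚ ≃ₐ[ℚ] AlgebraicClosure ℚ)

variable (N : ℕ) [NeZero N] {ℓ : ℕ} [hℓ : Fact ℓ.Prime] (hℓN : ¬ ℓ ∣ N)
variable (A : ValuationSubring (AlgebraicClosure ℚ)) (hA : A.LiesOverPrime ℓ)

/-- The class of a `σ`-fixed divisor of degree `0` of `X₀(N)` is `σ`-fixed in `J₀(N)`. -/
theorem galois_smul_mk_eq (σ : GQ)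
    {D : Divisor (AlgebraicClosure ℚ) (modularFunctionFieldBar N)}
    (hD : D ∈ Divisor.degZero (K := AlgebraicClosure ℚ) (F := modularFunctionFieldBar N))
    (h : arithmeticGalois (modularFunctionFieldFull N) σ • D = D) :
    σ • (Pic0.mk ⟨D, hD⟩ : JZero N) = Pic0.mk ⟨D, hD⟩ := by
  rw [galois_smul_pic0_def]
  exact pic0_smul_mk_eq _ hD h

variable {g : ℕ} {C C' : ChartData (redS N hℓN A hA) g}
  (X1 : ChordData C' (g + g)) (X2 : ChordData C g)

/-- **(C0) at the instance.** `twoChordConst X1 X2` is fixed by every `σ` lying in the stabilisers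
`placeStab N A Q` of the finitely many residue points `Q ∈ s` carrying the data, provided the lifts
`lift Q`, `Q ∈ s`, are `placeStab N A Q`-fixed (helper21's (SEC) at the points outside `Bad`) and the
places `∞₁`, `∞₂` are `σ`-fixed (helper24: `pinf N` is fixed by all of `G_ℚ`). -/
theorem smul_twoChordConst_of_placeStab
    (lift : Place (ResidueField A) (modularFunctionFieldFullC (ResidueField A) N) →
      Place (AlgebraicClosure ℚ) (modularFunctionFieldBar N))
    (s : Set (Place (ResidueField A) (modularFunctionFieldFullC (ResidueField A) N)))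
    (hlift : ∀ Q ∈ s, ∀ σ ∈ placeStab N A Q,
      arithmeticGalois (modularFunctionFieldFull N) σ • lift Q = lift Q)
    (Rb1 Rb2 : Divisor (ResidueField A) (modularFunctionFieldFullC (ResidueField A) N))
    (hR1 : X1.R = Finsupp.mapDomain lift Rb1) (hR2 : X2.R = Finsupp.mapDomain lift Rb2)
    (hs1 : ∀ Q ∈ Rb1.support, Q ∈ s) (hs2 : ∀ Q ∈ Rb2.support, Q ∈ s)
    (hP0 : ∀ j, C.P0 j = lift (C.Pb j)) (hPb : ∀ j, C.Pb j ∈ s)
    (σ : GQ) (hσ : ∀ Q ∈ s, σ ∈ placeStab N A Q)
    (hinf1 : arithmeticGalois (modularFunctionFieldFull N) σ • X1.Pinf = X1.Pinf)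
    (hinf2 : arithmeticGalois (modularFunctionFieldFull N) σ • X2.Pinf = X2.Pinf) :
    arithmeticGalois (modularFunctionFieldFull N) σ • twoChordConst X1 X2 =
      twoChordConst X1 X2 := by
  refine smul_twoChordConst X1 X2 _ hinf1 hinf2 ?_ ?_ fun j => ?_
  · rw [hR1]
    exact smul_mapDomain_lift_eq _ lift Rb1 fun Q hQ => hlift Q (hs1 Q hQ) σ (hσ Q (hs1 Q hQ))
  · rw [hR2]
    exact smul_mapDomain_lift_eq _ lift Rb2 fun Q hQ => hlift Q (hs2 Q hQ) σ (hσ Q (hs2 Q hQ))
  · rw [hP0 j]
    exact hlift _ (hPb j) σ (hσ _ (hPb j))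

/-- **(C0) at the instance, class level**: for any proof `hD` that the constant has degree `0`
(helper22's `G4.twoChordConst_mem_degZero`), the class `Pic0.mk ⟨twoChordConst X1 X2, hD⟩`
(= helper22's `G4.twoChordClass`) is `σ`-fixed. -/
theorem galois_smul_twoChordClass
    (lift : Place (ResidueField A) (modularFunctionFieldFullC (ResidueField A) N) →
      Place (AlgebraicClosure ℚ) (modularFunctionFieldBar N))
    (s : Set (Place (ResidueField A) (modularFunctionFieldFullC (ResidueField A) N)))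
    (hlift : ∀ Q ∈ s, ∀ σ ∈ placeStab N A Q,
      arithmeticGalois (modularFunctionFieldFull N) σ • lift Q = lift Q)
    (Rb1 Rb2 : Divisor (ResidueField A) (modularFunctionFieldFullC (ResidueField A) N))
    (hR1 : X1.R = Finsupp.mapDomain lift Rb1) (hR2 : X2.R = Finsupp.mapDomain lift Rb2)
    (hs1 : ∀ Q ∈ Rb1.support, Q ∈ s) (hs2 : ∀ Q ∈ Rb2.support, Q ∈ s)
    (hP0 : ∀ j, C.P0 j = lift (C.Pb j)) (hPb : ∀ j, C.Pb j ∈ s)
    (σ : GQ) (hσ : ∀ Q ∈ s, σ ∈ placeStab N A Q)
    (hinf1 : arithmeticGalois (modularFunctionFieldFull N) σ • X1.Pinf = X1.Pinf)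
    (hinf2 : arithmeticGalois (modularFunctionFieldFull N) σ • X2.Pinf = X2.Pinf)
    (hD : twoChordConst X1 X2 ∈
      Divisor.degZero (K := AlgebraicClosure ℚ) (F := modularFunctionFieldBar N)) :
    σ • (Pic0.mk ⟨twoChordConst X1 X2, hD⟩ : JZero N) = Pic0.mk ⟨twoChordConst X1 X2, hD⟩ :=
  galois_smul_mk_eq N σ hD
    (smul_twoChordConst_of_placeStab N hℓN A hA X1 X2 lift s hlift Rb1 Rb2 hR1 hR2 hs1 hs2 hP0 hPb
      σ hσ hinf1 hinf2)

end Fermat.Agent.FF2.G2I
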