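import Mathlib
import Fermat.Agent.FF2.G2I.Instance
import Fermat.Agent.FF2.G2.LiftFiltered

/-!
# MOONSHOT S19, block (F7)/(F8): the geometry contract of the dry assembly

Target: the hypotheses of helper19's `Main.S19_of_chart` (= helper22's `R2/Translate.lean` +
`R2/FiniteLevel.lean`) for the concrete objects

* `J := JZero N`, `V := J[ℓ^k]`, `j := V.subtype`,
* `J0 Γ := {u | reductionModL A N u = 0 ∧ ∀ σ ∈ Γ fixing V pointwise, σ • u = u}`
  (the `G_L`-fixed part of the kernel of reduction, `G_L` = pointwise stabiliser of `V` in the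
  level group `Γ`; referee's R14),
* `xW : J0 Γ → Fin g → integralClosure W ℚ̄` (the chart coordinates `xJ`),
* `redV : V →+ JZeroC k N`, `Γt := redV.range`, `π := redV.rangeRestrict`,
* `c γ := c' γ` for a family of lifts `c'`.

Proved here: `xW_injective`, `smul_mem_J0`, `xW_smul` (equivariance), `sub_lift_mem_J0` (h1),
`cocycle_mem_J0`, `xW_mem_of_fixed` (rational constants, h2), `redV_smul` (hτπ from the trivial
action), all from the leaf hypotheses listed in the section variables.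
-/

set_option autoImplicit false
set_option linter.style.haveILetI false
set_option linter.unusedSectionVars false

noncomputable section
namespace Fermat.Agent.FF2.G2I

open AlgebraicCurve ModularCurve IsLocalRing Fermat.Agent.Val Fermat.Agent.Red Fermat.Agent.FF2.G2
  Fermat.Agent.Val.GaloisModL

set_option synthInstance.maxHeartbeats 400000
set_option maxHeartbeats 1000000

local notation "Qb" => AlgebraicClosure ℚ
local notation "GQ" => (AlgebraicClosure ℚ ≃ₐ[ℚ] AlgebraicClosure ℚ)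

variable (N : ℕ) [NeZero N] {ℓ : ℕ} [hℓ : Fact ℓ.Prime] (hℓN : ¬ ℓ ∣ N)
variable (A : ValuationSubring (AlgebraicClosure ℚ)) (hA : A.LiesOverPrime ℓ) (k : ℕ)

/-- The torsion module `V = J₀(N)[ℓ^k]`. -/
abbrev TorsV : Type := ↥(Submodule.torsionBy ℤ (JZero N) ((ℓ : ℤ) ^ k))

/-- **`J0`**: the part of the kernel of reduction fixed by the pointwise stabiliser of `V` in the
level group `Γ`. -/
def J0 (Γ : Subgroup GQ) : AddSubgroup (JZero N) where
  carrier := {u | reductionModL A N u = 0 ∧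
    ∀ σ ∈ Γ, (∀ v : TorsV N (ℓ := ℓ) k, σ • (v : JZero N) = v) → σ • u = u}
  zero_mem' := ⟨map_zero _, fun σ _ _ => smul_zero σ⟩
  add_mem' := fun {a b} ha hb => ⟨by rw [map_add, ha.1, hb.1, add_zero], fun σ hσ hv => by
    rw [smul_add, ha.2 σ hσ hv, hb.2 σ hσ hv]⟩
  neg_mem' := fun {a} ha => ⟨by rw [map_neg, ha.1, neg_zero], fun σ hσ hv => by
    rw [smul_neg, ha.2 σ hσ hv]⟩

theorem mem_J0 {Γ : Subgroup GQ} {u : JZero N} : u ∈ J0 N (ℓ := ℓ) A k Γ ↔
    reductionModL A N u = 0 ∧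
      ∀ σ ∈ Γ, (∀ v : TorsV N (ℓ := ℓ) k, σ • (v : JZero N) = v) → σ • u = u := Iff.rfl

/-- The reduction of `V`. -/
def redV : TorsV N (ℓ := ℓ) k →+ JZeroC (ResidueField A) N :=
  (reductionModL A N).comp
    (Submodule.torsionBy ℤ (JZero N) ((ℓ : ℤ) ^ k)).subtype.toAddMonoidHom

theorem redV_apply (v : TorsV N (ℓ := ℓ) k) :
    redV N A k v = reductionModL A N (v : JZero N) := rfl

section Group

variable {Γ : Subgroup GQ} (hΓ : Γ ≤ A.decompositionSubgroup ℚ)

include hℓN hA hΓ in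
/-- `J0` is stable under the level group (the stabiliser of `V` is normal in it). -/
theorem smul_mem_J0 {τ : GQ} (hτ : τ ∈ Γ) {u : JZero N} (hu : u ∈ J0 N (ℓ := ℓ) A k Γ) :
    τ • u ∈ J0 N (ℓ := ℓ) A k Γ := by
  refine ⟨reductionModL_smul_eq_zero N hℓN A hA (hΓ hτ) hu.1, fun σ hσ hv => ?_⟩
  have hconj : τ⁻¹ * σ * τ ∈ Γ := Γ.mul_mem (Γ.mul_mem (Γ.inv_mem hτ) hσ) hτ
  have hconjv : ∀ v : TorsV N (ℓ := ℓ) k, (τ⁻¹ * σ * τ) • (v : JZero N) = v := by
    intro v
    -- `τ • v ∈ V`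
    have hτv : τ • (v : JZero N) ∈ Submodule.torsionBy ℤ (JZero N) ((ℓ : ℤ) ^ k) := by
      have h := v.2
      rw [Submodule.mem_torsionBy_iff] at h ⊢
      rw [← smul_zero τ, ← h, smul_comm]
    rw [mul_smul, mul_smul, hv ⟨τ • (v : JZero N), hτv⟩, inv_smul_smul]
  have h := hu.2 _ hconj hconjv
  rw [mul_smul, mul_smul] at h
  have h2 := congrArg (τ • ·) h
  simpa using h2

end Group

section Lifts

variable {Γ : Subgroup GQ}
  (c' : JZeroC (ResidueField A) N → JZero N) (hc' : ∀ ub, reductionModL A N (c' ub) = ub)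

include hc' in
/-- **(h1)**: `v − c (red v) ∈ J0` when the lift is fixed by `Γ`. -/
theorem sub_lift_mem_J0 (v : TorsV N (ℓ := ℓ) k)
    (hfix : ∀ σ ∈ Γ, σ • c' (redV N A k v) = c' (redV N A k v)) :
    (v : JZero N) - c' (redV N A k v) ∈ J0 N (ℓ := ℓ) A k Γ := by
  refine ⟨by rw [map_sub, hc', redV_apply, sub_self], fun σ hσ hv => ?_⟩
  rw [smul_sub, hv v, hfix σ hσ]

include hc' in
/-- **(h2), membership**: the cocycle of `Γ`-fixed lifts, corrected by a `Γ`-fixed constant of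
the kernel of reduction, lies in `J0`. -/
theorem cocycle_mem_J0 {ub ub' : JZeroC (ResidueField A) N} {c0 : JZero N}
    (hc0 : reductionModL A N c0 = 0) (hc0fix : ∀ σ ∈ Γ, σ • c0 = c0)
    (h1 : ∀ σ ∈ Γ, σ • c' ub = c' ub) (h2 : ∀ σ ∈ Γ, σ • c' ub' = c' ub')
    (h3 : ∀ σ ∈ Γ, σ • c' (ub + ub') = c' (ub + ub')) :
    c' ub + c' ub' - c' (ub + ub') - 2 • c0 ∈ J0 N (ℓ := ℓ) A k Γ := by
  refine ⟨by rw [map_sub, map_sub, map_add, hc', hc', hc', map_nsmul, hc0]; simp,
    fun σ hσ _ => ?_⟩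
  rw [smul_sub, smul_sub, smul_add, h1 σ hσ, h2 σ hσ, h3 σ hσ, two_nsmul, smul_add, hc0fix σ hσ]

end Lifts

section Coordinates

variable {g : ℕ} {C : ChartData (redS N hℓN A hA) g} (X : CoordData C)
  (hg : genusFF (AlgebraicClosure ℚ) (modularFunctionFieldBar N) ≤ g)
  (W : Subring Qb) (hint : ∀ z ∈ A, IsIntegral W z)

/-- **The coordinates, valued in the integral closure of the level ring.** -/
def xW {Γ : Subgroup GQ} (u : J0 N (ℓ := ℓ) A k Γ) (i : Fin g) : integralClosure W Qb :=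
  ⟨((xJ N hℓN A hA X hg (u : JZero N) i : {c : A // residue A c = 0}) : A),
    hint _ (xJ N hℓN A hA X hg (u : JZero N) i).1.2⟩

theorem coe_xW {Γ : Subgroup GQ} (u : J0 N (ℓ := ℓ) A k Γ) (i : Fin g) :
    ((xW N hℓN A hA k X hg W hint u i : integralClosure W Qb) : Qb) =
      ((xJ N hℓN A hA X hg (u : JZero N) i : {c : A // residue A c = 0}) : A) := rfl

/-- **(i) injectivity.** -/
theorem xW_injective {Γ : Subgroup GQ} :
    Function.Injective (xW N hℓN A hA k X hg W hint (Γ := Γ)) := by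
  intro u u' h
  apply Subtype.ext
  rw [← xJ_eq_iff N hℓN A hA X hg u.2.1 u'.2.1]
  funext i
  apply Subtype.ext
  apply Subtype.ext
  have := congrArg (fun f => ((f i : integralClosure W Qb) : Qb)) h
  exact this

variable {Γ : Subgroup GQ} (hΓ : Γ ≤ A.decompositionSubgroup ℚ)
  (hP0 : ∀ σ ∈ Γ, ∀ j, arithmeticGalois (modularFunctionFieldFull N) σ • C.P0 j = C.P0 j)
  (hPb : ∀ σ (hσ : σ ∈ Γ), ∀ j,
    coeffAutC (ResidueField A) N (decompResAut A ⟨σ, hΓ hσ⟩) • C.Pb j = C.Pb j)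
  (ht : ∀ σ ∈ Γ, ∀ j, arithmeticGalois (modularFunctionFieldFull N) σ • (X.T j).t = (X.T j).t)

include hP0 hPb ht in
/-- **(hτx) equivariance** under the level group. -/
theorem xW_smul {τ : GQ} (hτ : τ ∈ Γ) (u : J0 N (ℓ := ℓ) A k Γ) (i : Fin g) :
    ((xW N hℓN A hA k X hg W hint
        ⟨τ • (u : JZero N), smul_mem_J0 N hℓN A hA k hΓ hτ u.2⟩ i : integralClosure W Qb) : Qb) =
      τ ((xW N hℓN A hA k X hg W hint u i : integralClosure W Qb) : Qb) := by
  rw [coe_xW, coe_xW]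
  exact xJ_smul N hℓN A hA X hg (hΓ hτ) (hP0 τ hτ) (hPb τ hτ) (ht τ hτ) u.2.1 i

include hP0 hPb ht in
/-- **(h2), rationality**: an element of `J0` fixed by the whole level group has coordinates
fixed by the level group. -/
theorem xW_fixed {τ : GQ} (hτ : τ ∈ Γ) (u : J0 N (ℓ := ℓ) A k Γ)
    (hfix : τ • (u : JZero N) = u) (i : Fin g) :
    τ ((xW N hℓN A hA k X hg W hint u i : integralClosure W Qb) : Qb) =
      ((xW N hℓN A hA k X hg W hint u i : integralClosure W Qb) : Qb) := by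
  rw [← xW_smul N hℓN A hA k X hg W hint hΓ hP0 hPb ht hτ u i]
  congr 3

include hP0 hPb ht in
/-- **(h2)**: if `W` contains every element of `A` fixed by the level group (`W = lamRing A Γ`),
the coordinates of a `Γ`-fixed element of `J0` lie in `W`. -/
theorem exists_xW_eq_algebraMap (hW : ∀ z ∈ A, (∀ σ ∈ Γ, σ z = z) → z ∈ W)
    (u : J0 N (ℓ := ℓ) A k Γ) (hfix : ∀ τ ∈ Γ, τ • (u : JZero N) = u) (i : Fin g) :
    ∃ a : W, xW N hℓN A hA k X hg W hint u i = algebraMap W (integralClosure W Qb) a := by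
  refine ⟨⟨((xW N hℓN A hA k X hg W hint u i : integralClosure W Qb) : Qb), hW _ ?_ ?_⟩, ?_⟩
  · exact (xJ N hℓN A hA X hg (u : JZero N) i).1.2
  · intro σ hσ
    exact xW_fixed N hℓN A hA k X hg W hint hΓ hP0 hPb ht hσ u (hfix σ hσ) i
  · exact Subtype.ext rfl

end Coordinates

section Pi

variable {Γ : Subgroup GQ} (hΓ : Γ ≤ A.decompositionSubgroup ℚ)

include hℓN hA in
/-- **(hτπ)** from the triviality of the residual action on `red(V)`. -/
theorem redV_smul {τ : GQ} (hτ : τ ∈ A.decompositionSubgroup ℚ) (v : TorsV N (ℓ := ℓ) k)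
    (htriv : coeffPic0Hom (ResidueField A) N (decompResAut A ⟨τ, hτ⟩) (redV N A k v) =
      redV N A k v) :
    reductionModL A N (τ • (v : JZero N)) = redV N A k v := by
  rw [reductionModL_decomposition_smul N hℓN A hA (inputs N hℓN A hA) hτ]
  exact htriv

end Pi

end Fermat.Agent.FF2.G2I
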