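import Mathlib
import Fermat.Agent.FF2.Main.Final
import Fermat.Agent.FF2.G2I.Choices
import Fermat.Agent.FF2.G2I.Bridge
import Fermat.Agent.FF2.G2I.ConstFixed
import Fermat.Agent.FF2.RatD.GeoInst
import Fermat.Agent.FF2.G4.AddFinite

/-!
# PROGRAM H (S19), node (T-GEO): helper19's `Main.GeoContract` from the geometry leaves

`P = padicPlace ℓ`, `S = redSP p ℓ hℓp = G2I.redS p hℓp P _`, `g₀ = genusFF k F̃_p`.

* `AddGeoStatement p ℓ hℓp` : the typed contract of the remaining node (helper22's `add_instance_geo`):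
  for the level-free choices of `G2I.exists_chord_choices` and ONE `G : SF.GeoData S (lamZToP ℓ ζ) …`
  with helper20's export clauses, the finite-family addition congruence `Main.AddCong` holds for the
  chart coordinates `X = CoordData.ofCof C G.Cof _` and `c0 = G4.twoChordClass X1 X2 …`.
* `geoContract_of_addGeo : AddGeoStatement p ℓ hℓp → Main.GeoContract p ℓ hℓp` : the assembly
  (choices → `s`, `E₀ = ∅` → under `∀ ζ`: helper20's (GEO-INST) → `ofCof` → (CH) → `c0`).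
-/

set_option autoImplicit false
set_option linter.style.haveILetI false
set_option linter.unusedSectionVars false

noncomputable section
namespace Fermat.Agent.FF2.G2I

open AlgebraicCurve ModularCurve IsLocalRing Module Fermat.Agent.Val Fermat.Agent.Red
  Fermat.Agent.FF2.G2 Fermat.Agent.Val.GaloisModL Fermat.Agent.FF2.Rat Fermat.Agent.FF2.GC
  Fermat.Agent.FF2.NS Fermat.Agent.FF2.Disc Fermat.Agent.X0 Fermat.Agent.FF2.Rat24
  Fermat.Agent.Good.CuspBound Fermat.Agent.FF2.Base Fermat.Agent.FF2.Main Fermat.Agent.FF2.G4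
  Fermat.Agent.FF2.SF Fermat.Agent.S55

set_option synthInstance.maxHeartbeats 400000
set_option maxHeartbeats 2000000

local notation "Qb" => AlgebraicClosure ℚ
local notation "GQ" => (AlgebraicClosure ℚ ≃ₐ[ℚ] AlgebraicClosure ℚ)

variable (p : ℕ) [NeZero p] (ℓ : ℕ) [hℓ : Fact ℓ.Prime] (hℓp : ¬ ℓ ∣ p)

/-- The genus of the special fibre. -/
abbrev gSp : ℕ := genusFF (ResidueField (padicPlace ℓ))
  (modularFunctionFieldFullC (ResidueField (padicPlace ℓ)) p)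

include hℓp in
theorem genusFF_bar_le_gSp : genusFF Qb (modularFunctionFieldBar p) ≤ gSp p ℓ :=
  (Fermat.Agent.Good.FinalH3.genusFF_modL_eq_bar p hℓp (padicPlace ℓ)
    (padicPlace_liesOverPrime ℓ)).ge

/-- **The typed contract of `add_instance_geo`** (N7a): (ADD) for the chart coordinates built from
ONE `SF.GeoData` on the finite set `s` of residue centres. -/
def AddGeoStatement : Prop :=
  ∀ (Bad : Finset (Place (ResidueField (padicPlace ℓ))
        (modularFunctionFieldFullC (ResidueField (padicPlace ℓ)) p)))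
    (lift : Place (ResidueField (padicPlace ℓ))
        (modularFunctionFieldFullC (ResidueField (padicPlace ℓ)) p) →
      Place Qb (modularFunctionFieldBar p))
    (_hlift : ∀ Q, (redSP p ℓ hℓp).r (lift Q) = Q)
    (C C' : ChartData (redSP p ℓ hℓp) (gSp p ℓ))
    (_hCBad : ∀ j, C.Pb j ∉ Bad) (_hCP0 : ∀ j, C.P0 j = lift (C.Pb j))
    (_hC'Bad : ∀ j, C'.Pb j ∉ Bad) (_hC'P0 : ∀ j, C'.P0 j = lift (C'.Pb j))
    (_hdisj : ∀ i j, C'.Pb j ≠ C.Pb i)
    (_hinf : ∀ j, C.Pb j ≠ (redSP p ℓ hℓp).r (pinf p))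
    (_hinf' : ∀ j, C'.Pb j ≠ (redSP p ℓ hℓp).r (pinf p))
    (m : ℕ) (X1 : ChordData C' (gSp p ℓ + gSp p ℓ))
    (Rb1 : Divisor (ResidueField (padicPlace ℓ))
      (modularFunctionFieldFullC (ResidueField (padicPlace ℓ)) p))
    (X2 : ChordData C (gSp p ℓ))
    (Rb2 : Divisor (ResidueField (padicPlace ℓ))
      (modularFunctionFieldFullC (ResidueField (padicPlace ℓ)) p))
    (_h1 : X1.Pinf = pinf p ∧ X1.m = m ∧ X1.Qb = Fin.append C.Pb C.Pb ∧
      X1.R = Finsupp.mapDomain lift Rb1 ∧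
      Finsupp.mapDomain (redSP p ℓ hℓp).r X1.R = Rb1 ∧ 0 ≤ X1.R ∧
      (∀ Q ∈ Bad, Rb1 Q = 0) ∧
      ChordOneJets ((redSP p ℓ hℓp).r (pinf p)) m C.Pb C'.Pb X1.f0b Rb1)
    (_h2 : X2.Pinf = pinf p ∧ X2.m = m ∧ X2.Qb = C'.Pb ∧
      X2.R = Finsupp.mapDomain lift Rb2 ∧
      Finsupp.mapDomain (redSP p ℓ hℓp).r X2.R = Rb2 ∧ 0 ≤ X2.R ∧
      (∀ Q ∈ Bad, Rb2 Q = 0) ∧
      ChordTwoJets ((redSP p ℓ hℓp).r (pinf p)) m C.Pb C'.Pb X2.f0b Rb2)
    (s : Finset (Place (ResidueField (padicPlace ℓ))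
        (modularFunctionFieldFullC (ResidueField (padicPlace ℓ)) p)))
    (_hsC : ∀ j, C.Pb j ∈ s) (_hsC' : ∀ j, C'.Pb j ∈ s)
    (_hs1 : ∀ Q ∈ Rb1.support, Q ∈ s) (_hs2 : ∀ Q ∈ Rb2.support, Q ∈ s)
    (_hsBad : ∀ Q ∈ s, Q ∉ Bad)
    (m' : ℕ) (ζ : Qb) (_hm' : ¬ ℓ ∣ m') (_hζ : ζ ^ m' = 1)
    (G : GeoData (redSP p ℓ hℓp) (lamZToP ℓ ζ) (placesOverInfty Qb (jBar p))
      (Fin (finrank Qb (riemannRochSpace
        (Finsupp.single (pinf p) (m : ℤ) : Divisor Qb (modularFunctionFieldBar p))))))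
    (_hGrel : G.rel = ↑s)
    (_hGP0 : ∀ Q ∈ s, (G.Cof Q).P₀ = lift Q)
    (_hGL : ∀ i, G.e i ∈ riemannRochSpace
      (Finsupp.single (pinf p) (m : ℤ) : Divisor Qb (modularFunctionFieldBar p)))
    (_hGO : ∀ i, G.e i ∈ (redSP p ℓ hℓp).O)
    (_hGres : LinearIndependent (ResidueField (padicPlace ℓ)) fun i =>
      (redSP p ℓ hℓp).resF (G.e i))
    (_hGind : LinearIndependent Qb G.e)
    (_hGspan : Submodule.span Qb (Set.range G.e) = riemannRochSpace
      (Finsupp.single (pinf p) (m : ℤ) : Divisor Qb (modularFunctionFieldBar p)))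
    (hC : ∀ j, (G.Cof (C.Pb j)).P₀ = C.P0 j)
    (hQ1 : ∀ i, X1.Qb i = Fin.append C.Pb C.Pb i) (hQ2 : ∀ j, X2.Qb j = C'.Pb j),
    AddCong hℓp (LamZ ℓ ζ) (CoordData.ofCof C G.Cof hC) (genusFF_bar_le_gSp p ℓ hℓp)
      (twoChordClass X1 X2 (residue_surjective' (padicPlace ℓ)) (riemannPkg_bar p)
        (riemannPkg_modL_residueField p hℓp (padicPlace ℓ) (padicPlace_liesOverPrime ℓ))
        (genusFF_bar_le_gSp p ℓ hℓp) hQ1 hQ2)

end Fermat.Agent.FF2.G2I
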