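import Mathlib
import Fermat.Agent.FF2.G2I.GeoContract

/-!
# PROGRAM H (S19), node (T-GEO): the assembly `AddGeoStatement ⇒ Main.GeoContract`

`geoContract_of_addGeo : G2I.AddGeoStatement p ℓ hℓp → Main.GeoContract p ℓ hℓp`:
`exists_chord_choices` (level-free: `Bad`, `lift`, `C`, `C'`, `m`, `X1`, `Rb1`, `X2`, `Rb2`) →
`s := C.Pb ∪ C'.Pb ∪ supp Rb1 ∪ supp Rb2`, `E₀ := ∅` → under `∀ m' ζ`: the level group lies in the
stabilisers of the points of `s` (`Rat.mem_placeStab`) → helper20's `RatD.exists_geoData_of_good_section`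
→ `X := CoordData.ofCof C G.Cof _` → (CH) `ch_of_cof'` → `c0 := G4.twoChordClass X1 X2 …`
(`twoChordClass_mem_kerRedPic`, `galois_smul_twoChordClass`) → (ADD) = the hypothesis.
The case `g = 0` is vacuous (`geoContract_of_gSp_eq_zero`).
-/

set_option autoImplicit false
set_option linter.style.haveILetI false
set_option linter.unusedSectionVars false

noncomputable section
namespace Fermat.Agent.FF2.G2I

open AlgebraicCurve ModularCurve IsLocalRing Module Fermat.Agent.Val Fermat.Agent.Red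
  Fermat.Agent.FF2.G2 Fermat.Agent.Val.GaloisModL Fermat.Agent.FF2.Rat Fermat.Agent.FF2.GC
  Fermat.Agent.FF2.NS Fermat.Agent.FF2.Disc Fermat.Agent.X0 Fermat.Agent.FF2.Rat24
  Fermat.Agent.Good.CuspBound Fermat.Agent.FF2.Base Fermat.Agent.FF2.Main Fermat.Agent.FF2.G4
  Fermat.Agent.FF2.SF Fermat.Agent.S55

set_option synthInstance.maxHeartbeats 400000
set_option maxHeartbeats 2000000

local notation "Qb" => AlgebraicClosure ℚ
local notation "GQ" => (AlgebraicClosure ℚ ≃ₐ[ℚ] AlgebraicClosure ℚ)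

variable (p : ℕ) [NeZero p] (ℓ : ℕ) [hℓ : Fact ℓ.Prime] (hℓp : ¬ ℓ ∣ p)

/-! ### the assembly -/

/-- The trivial case `g = 0` of (T-GEO): everything is vacuous. -/
theorem geoContract_of_gSp_eq_zero (h0 : gSp p ℓ = 0) : GeoContract p ℓ hℓp := by
  classical
  obtain ⟨Bad, lift, hlift, -, -, C, -, -, -, -, -, -, -, -, -⟩ :=
    exists_chord_choices p hℓp (padicPlace ℓ) (padicPlace_liesOverPrime ℓ)
  have hemp : ∀ j : Fin (gSp p ℓ), False := fun j =>
    absurd (lt_of_lt_of_eq j.isLt h0) (Nat.not_lt_zero _)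
  let X : CoordData C :=
    { Z := fun _ => ∅
      T := fun j => (hemp j).elim
      hT := fun j => (hemp j).elim }
  have hsm0 : ∀ σ : GQ, σ • (0 : JZero p) = 0 := fun σ => smul_zero (A := JZero p) σ
  refine ⟨∅, ∅, fun m ζ _ _ _ _ => ⟨gSp p ℓ, genusFF_bar_le_gSp p ℓ hℓp, C, X,
    ⟨fun _ _ j => (hemp j).elim, fun _ _ j => (hemp j).elim, fun _ _ j => (hemp j).elim⟩,
    0, map_zero _, fun σ _ => hsm0 σ, fun U _ n => ⟨fun j => (hemp j).elim,
      fun _ _ _ _ i => (hemp i).elim⟩⟩⟩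

/-- **(T-GEO)**: helper19's `Main.GeoContract` from the addition congruence on ONE `GeoData`. -/
theorem geoContract_of_addGeo (hadd : AddGeoStatement p ℓ hℓp) : GeoContract p ℓ hℓp := by
  classical
  by_cases h0 : gSp p ℓ = 0
  · exact geoContract_of_gSp_eq_zero p ℓ hℓp h0
  have hg0 : 0 < gSp p ℓ := Nat.pos_of_ne_zero h0
  obtain ⟨Bad, lift, hlift, hcusp, hgood, C, C', hCBad, hCP0, hC'Bad, hC'P0, hdisj, hinf, hinf',
    m, hm⟩ := exists_chord_choices p hℓp (padicPlace ℓ) (padicPlace_liesOverPrime ℓ)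
  obtain ⟨X1, Rb1, X2, Rb2, h1, h2⟩ := hm m le_rfl
  -- the finite set of residue centres
  set s : Finset (Place (ResidueField (padicPlace ℓ))
      (modularFunctionFieldFullC (ResidueField (padicPlace ℓ)) p)) :=
    Finset.image C.Pb Finset.univ ∪ Finset.image C'.Pb Finset.univ ∪ Rb1.support ∪ Rb2.support
    with hs_def
  have hsC : ∀ j, C.Pb j ∈ s := fun j => by
    rw [hs_def]
    exact Finset.mem_union_left _ (Finset.mem_union_left _ (Finset.mem_union_left _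
      (Finset.mem_image_of_mem _ (Finset.mem_univ j))))
  have hsC' : ∀ j, C'.Pb j ∈ s := fun j => by
    rw [hs_def]
    exact Finset.mem_union_left _ (Finset.mem_union_left _ (Finset.mem_union_right _
      (Finset.mem_image_of_mem _ (Finset.mem_univ j))))
  have hs1 : ∀ Q ∈ Rb1.support, Q ∈ s := fun Q hQ => by
    rw [hs_def]
    exact Finset.mem_union_left _ (Finset.mem_union_right _ hQ)
  have hs2 : ∀ Q ∈ Rb2.support, Q ∈ s := fun Q hQ => by
    rw [hs_def]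
    exact Finset.mem_union_right _ hQ
  have hsBad : ∀ Q ∈ s, Q ∉ Bad := by
    intro Q hQ hQB
    rw [hs_def, Finset.mem_union, Finset.mem_union, Finset.mem_union] at hQ
    rcases hQ with ((hQ | hQ) | hQ) | hQ
    · obtain ⟨j, -, rfl⟩ := Finset.mem_image.1 hQ
      exact hCBad j hQB
    · obtain ⟨j, -, rfl⟩ := Finset.mem_image.1 hQ
      exact hC'Bad j hQB
    · exact (Finsupp.mem_support_iff.1 hQ) (h1.2.2.2.2.2.2.1 Q hQB)
    · exact (Finsupp.mem_support_iff.1 hQ) (h2.2.2.2.2.2.2.1 Q hQB)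
  have hne : s.Nonempty := ⟨C.Pb ⟨0, hg0⟩, hsC _⟩
  refine ⟨s, ∅, fun m' ζ hm' hζ hsfix _ => ?_⟩
  -- the level group fixes the centres
  have hζs : ∀ σ ∈ GamZ ℓ ζ, ∀ Q ∈ s, σ ∈ placeStab p (padicPlace ℓ) Q :=
    fun σ hσ Q hQ => mem_placeStab.2 ⟨hσ.1, hsfix σ hσ Q hQ⟩
  -- (GEO-INST)
  obtain ⟨G, hGrel, hGs, hGL, hGfix, hGO, hGres, hGind, hGspan⟩ :=
    Fermat.Agent.FF2.RatD.exists_geoData_of_good_section hℓp (padicPlace_liesOverPrime ℓ)
      (inputs p hℓp (padicPlace ℓ) (padicPlace_liesOverPrime ℓ)) ζ Bad lift hlift hgood s hne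
      hsBad hζs (m : ℤ)
  have hGP0 : ∀ Q ∈ s, (G.Cof Q).P₀ = lift Q := fun Q hQ => (hGs Q hQ).1
  have hC : ∀ j, (G.Cof (C.Pb j)).P₀ = C.P0 j := fun j => by
    rw [hCP0 j]
    exact hGP0 _ (hsC j)
  have hQ1 : ∀ i, X1.Qb i = Fin.append C.Pb C.Pb i := fun i => by rw [h1.2.2.1]
  have hQ2 : ∀ j, X2.Qb j = C'.Pb j := fun j => by rw [h2.2.2.1]
  have hΓ : GamZ ℓ ζ ≤ (padicPlace ℓ).decompositionSubgroup ℚ := fun _ h => h.1
  -- (CH)
  have hCH := ch_of_cof' p hℓp (padicPlace ℓ) (padicPlace_liesOverPrime ℓ) C G.Cof hC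
    (GamZ ℓ ζ) hΓ (fun j σ hσ => hζs σ hσ _ (hsC j)) (fun j => (hGs _ (hsC j)).2.2)
  -- fixedness of the lifts of the points of `s`
  have hliftfix : ∀ Q ∈ (s : Set (Place (ResidueField (padicPlace ℓ))
      (modularFunctionFieldFullC (ResidueField (padicPlace ℓ)) p))),
      ∀ σ ∈ placeStab p (padicPlace ℓ) Q,
        arithmeticGalois (modularFunctionFieldFull p) σ • lift Q = lift Q := by
    intro Q hQ σ hσ
    have h := ((hGs Q hQ).2.2 σ hσ).1
    rwa [hGP0 Q hQ] at h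
  refine ⟨gSp p ℓ, genusFF_bar_le_gSp p ℓ hℓp, C, CoordData.ofCof C G.Cof hC,
    ⟨fun σ hσ j => (hCH σ hσ).1 j, fun σ hσ j => (hCH σ hσ).2.1 j,
      fun σ hσ j => (hCH σ hσ).2.2 j⟩,
    twoChordClass X1 X2 (residue_surjective' (padicPlace ℓ)) (riemannPkg_bar p)
      (riemannPkg_modL_residueField p hℓp (padicPlace ℓ) (padicPlace_liesOverPrime ℓ))
      (genusFF_bar_le_gSp p ℓ hℓp) hQ1 hQ2, ?_, ?_, ?_⟩
  · -- reduction of `c0`
    have hmem := twoChordClass_mem_kerRedPic X1 X2 (residue_surjective' (padicPlace ℓ))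
      (riemannPkg_bar p)
      (riemannPkg_modL_residueField p hℓp (padicPlace ℓ) (padicPlace_liesOverPrime ℓ))
      (genusFF_bar_le_gSp p ℓ hℓp) hQ1 hQ2
    rw [← ker_reductionModL p hℓp (padicPlace ℓ) (padicPlace_liesOverPrime ℓ)] at hmem
    exact hmem
  · -- `c0` is fixed by the level group
    intro σ hσ
    exact galois_smul_twoChordClass p hℓp (padicPlace ℓ) (padicPlace_liesOverPrime ℓ) X1 X2 lift
      (s : Set _) hliftfix Rb1 Rb2 h1.2.2.2.1 h2.2.2.2.1 (fun Q hQ => hs1 Q hQ)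
      (fun Q hQ => hs2 Q hQ) hCP0 (fun j => hsC j) σ (fun Q hQ => hζs σ hσ Q hQ)
      (by rw [h1.1]; exact arithmeticGalois_smul_pinf p σ)
      (by rw [h2.1]; exact arithmeticGalois_smul_pinf p σ) _
  · -- (ADD)
    exact hadd Bad lift hlift C C' hCBad hCP0 hC'Bad hC'P0 hdisj hinf hinf' m X1 Rb1 X2 Rb2 h1 h2
      s hsC hsC' hs1 hs2 hsBad m' ζ hm' hζ G hGrel hGP0 hGL hGO hGres hGind hGspan hC hQ1 hQ2

end Fermat.Agent.FF2.G2I
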