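import Mathlib
import Fermat.Agent.FF2.G2I.GeoAssembly
import Fermat.Agent.FF2.G4I.AddGeo

/-!
# PROGRAM H (S19), node (T-GEO), closed: `Main.GeoContract p ℓ hℓp`

`geoContract` = `geoContract_of_addGeo` (the assembly, `G2I/GeoAssembly.lean`) applied to helper22's
`G4I.addGeoStatement` (the finite-family addition congruence on ONE `SF.GeoData`).
-/

set_option autoImplicit false

namespace Fermat.Agent.FF2.G2I

/-- **(T-GEO)**: helper19's `Main.GeoContract`, unconditionally. -/
theorem geoContract (p : ℕ) [NeZero p] (ℓ : ℕ) [Fact ℓ.Prime] (hℓp : ¬ ℓ ∣ p) :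
    Fermat.Agent.FF2.Main.GeoContract p ℓ hℓp :=
  geoContract_of_addGeo p ℓ hℓp (Fermat.Agent.FF2.G4I.addGeoStatement p ℓ hℓp)

end Fermat.Agent.FF2.G2I
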